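import Mathlib
import Fermat.Prelude.Def_EllipticCurve_FrobeniusTrace

set_option autoImplicit false

namespace Fermat.Agent.S54

open Polynomial

/-- Key algebraic lemma: if `B ⊆ A` with `B` integrally closed in `L` and `A` a valuation subring,
an element `x ∈ A` that is a root of a polynomial over `B` with some coefficient a unit of `A`
is a fraction `b / s` with `b, s ∈ B` and `s` a unit of `A`. -/
theorem exists_mul_eq_of_aeval_eq_zero {L : Type*} [Field L] (A : ValuationSubring L)
    (B : Subring L) (hB : ∀ y : L, IsIntegral B y → y ∈ B) :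
    ∀ (n : ℕ) (f : B[X]), f.natDegree ≤ n → (∃ i, ((f.coeff i : B) : L) ∉ A.nonunits) →
      ∀ x ∈ A, aeval x f = 0 → ∃ b s : B, (s : L) ∉ A.nonunits ∧ x * s = b := by
  have halg : ∀ b : B, algebraMap B L b = (b : L) := fun _ => rfl
  intro n
  induction n with
  | zero =>
    intro f hf hi x hx hfx
    exfalso
    obtain ⟨i, hi⟩ := hi
    rw [Polynomial.eq_C_of_natDegree_le_zero hf] at hfx hi
    rw [aeval_C, halg] at hfx
    have h0 : f.coeff 0 = 0 := by exact_mod_cast hfx
    apply hi
    rw [h0, map_zero, coeff_zero]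
    exact A.nonunits.zero_mem
  | succ n ih =>
    intro f hf hi x hx hfx
    by_cases hdeg : f.natDegree ≤ n
    · exact ih f hdeg hi x hx hfx
    have hdeg' : f.natDegree = n + 1 := le_antisymm hf (Nat.lt_of_not_le hdeg)
    have hint : IsIntegral B (f.leadingCoeff • x) := isIntegral_leadingCoeff_smul f x hfx
    have hcB : f.leadingCoeff • x ∈ B := hB _ hint
    have hsmul : f.leadingCoeff • x = (f.leadingCoeff : L) * x := rfl
    by_cases ha : ((f.leadingCoeff : B) : L) ∈ A.nonunits
    · -- leading coefficient is a non-unit; reduce the degree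
      set c : B := ⟨f.leadingCoeff • x, hcB⟩ with hc
      have hcval : (c : L) = (f.leadingCoeff : L) * x := hsmul
      have hcnon : (c : L) ∈ A.nonunits := by
        rw [hcval, A.mem_nonunits_iff, map_mul]
        have h1 : A.valuation (f.leadingCoeff : L) < 1 := A.mem_nonunits_iff.mp ha
        have h2 : A.valuation x ≤ 1 := (A.valuation_le_one_iff x).mpr hx
        calc A.valuation (f.leadingCoeff : L) * A.valuation x
            ≤ A.valuation (f.leadingCoeff : L) * 1 := by gcongr
          _ = A.valuation (f.leadingCoeff : L) := mul_one _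
          _ < 1 := h1
      let g : B[X] := f.eraseLead + C c * X ^ n
      have hgdeg : g.natDegree ≤ n := by
        refine (natDegree_add_le _ _).trans (max_le ?_ ?_)
        · have := eraseLead_natDegree_le f
          omega
        · exact natDegree_C_mul_X_pow_le c n
      have hgx : aeval x g = 0 := by
        have h1 : aeval x f = aeval x f.eraseLead + (f.leadingCoeff : L) * x ^ (n + 1) := by
          conv_lhs => rw [← eraseLead_add_C_mul_X_pow f]
          rw [map_add, hdeg']
          simp [halg]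
        have h2 : aeval x g = aeval x f.eraseLead + (c : L) * x ^ n := by
          simp [g, halg]
        rw [h2, hcval, ← hfx, h1]
        ring
      obtain ⟨i, hi⟩ := hi
      have hine : i ≠ n + 1 := by
        rintro rfl
        apply hi
        rw [← hdeg']
        exact ha
      have hgi : ∃ j, ((g.coeff j : B) : L) ∉ A.nonunits := by
        refine ⟨i, fun hmem => hi ?_⟩
        have hcoeff : g.coeff i = f.coeff i + (if i = n then c else 0) := by
          simp only [g, coeff_add, coeff_C_mul, coeff_X_pow]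
          rw [eraseLead_coeff_of_ne i (by rw [hdeg']; exact hine)]
          split_ifs <;> simp
        rw [hcoeff] at hmem
        by_cases hin : i = n
        · simp only [hin, if_true] at hmem
          have : ((f.coeff n : B) : L) = ((f.coeff n + c : B) : L) - (c : L) := by
            push_cast; ring
          rw [hin, this]
          exact A.nonunits.sub_mem hmem hcnon
        · simpa [hin] using hmem
      exact ih g hgdeg hgi x hx hgx
    · exact ⟨⟨_, hcB⟩, f.leadingCoeff, ha, (mul_comm _ _).trans hsmul.symm⟩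

section Fraction

variable {L : Type*} [Field L]

/-- Integral elements lie in every valuation subring. -/
theorem mem_valuationSubring_of_isIntegral_int (A : ValuationSubring L) {x : L}
    (hx : IsIntegral ℤ x) : x ∈ A := by
  have h1 : IsIntegral A x := hx.tower_top
  obtain ⟨y, hy⟩ := (IsIntegrallyClosed.isIntegral_iff (R := A) (K := L)).mp h1
  rw [← hy]
  exact y.2

/-- If `p` is a non-unit of `A` and `a : ℤ` is not divisible by `p`, then `a` is a unit of `A`. -/
theorem intCast_not_mem_nonunits (A : ValuationSubring L) {p : ℕ} (hp : p.Prime)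
    (hpA : (p : L) ∈ A.nonunits) {a : ℤ} (ha : ¬ (p : ℤ) ∣ a) : (a : L) ∉ A.nonunits := by
  intro haA
  have hcop : IsCoprime a (p : ℤ) := by
    rw [Int.isCoprime_iff_gcd_eq_one]
    have := (Nat.Prime.coprime_iff_not_dvd hp).mpr (fun h => ha (by
      rw [Int.natCast_dvd] ; exact h))
    rw [Int.gcd_comm]
    simpa [Int.gcd, Nat.Coprime] using this
  obtain ⟨u, v, huv⟩ := hcop
  have h1 : ((u : L) * (a : L) + (v : L) * (p : L)) = 1 := by exact_mod_cast congrArg (Int.cast (R := L)) huv
  have hu : (u : L) ∈ A := intCast_mem A u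
  have hv : (v : L) ∈ A := intCast_mem A v
  have hlt : A.valuation ((u : L) * (a : L) + (v : L) * (p : L)) < 1 := by
    refine lt_of_le_of_lt (A.valuation.map_add _ _) (max_lt ?_ ?_)
    · rw [map_mul]
      calc A.valuation (u : L) * A.valuation (a : L) ≤ 1 * A.valuation (a : L) := by
            gcongr; exact (A.valuation_le_one_iff _).mpr hu
        _ = A.valuation (a : L) := one_mul _
        _ < 1 := A.mem_nonunits_iff.mp haA
    · rw [map_mul]
      calc A.valuation (v : L) * A.valuation (p : L) ≤ 1 * A.valuation (p : L) := by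
            gcongr; exact (A.valuation_le_one_iff _).mpr hv
        _ = A.valuation (p : L) := one_mul _
        _ < 1 := A.mem_nonunits_iff.mp hpA
  rw [h1, map_one] at hlt
  exact lt_irrefl _ hlt

/-- Every element of a valuation subring `A` (of a characteristic zero field) lying over `p` that is
algebraic over `ℤ` is a fraction of two algebraic integers, the denominator being a unit of `A`. -/
theorem exists_integral_fraction [CharZero L] (A : ValuationSubring L) {p : ℕ} (hp : p.Prime)
    (hpA : (p : L) ∈ A.nonunits) {x : L} (hx : x ∈ A) (hxalg : IsAlgebraic ℤ x) :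
    ∃ b s : L, IsIntegral ℤ b ∧ IsIntegral ℤ s ∧ s ∉ A.nonunits ∧ x * s = b := by
  obtain ⟨q, hq0, hqx⟩ := hxalg
  -- pass to the primitive part
  have hcont : (q.content : L) ≠ 0 := by
    rw [Ne, Int.cast_eq_zero, Polynomial.content_eq_zero_iff]
    exact hq0
  have hprim : aeval x q.primPart = 0 := by
    have h := hqx
    rw [q.eq_C_content_mul_primPart, map_mul, aeval_C] at h
    rcases mul_eq_zero.mp h with h | h
    · exact absurd (by simpa using h) hcont
    · exact h
  have hexi : ∃ i, ¬ (p : ℤ) ∣ q.primPart.coeff i := by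
    by_contra hall
    push Not at hall
    have hdvd : C (p : ℤ) ∣ q.primPart := (Polynomial.C_dvd_iff_dvd_coeff _ _).mpr hall
    have hunit := (q.isPrimitive_primPart) _ hdvd
    have := Int.isUnit_iff.mp hunit
    have hp2 := hp.two_le
    omega
  obtain ⟨i, hi⟩ := hexi
  set B : Subring L := (integralClosure ℤ L).toSubring with hBdef
  have hB : ∀ y : L, IsIntegral B y → y ∈ B := by
    intro y hy
    have : IsIntegral (integralClosure ℤ L) y := hy
    exact isIntegral_trans (R := ℤ) (A := integralClosure ℤ L) y this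
  let f : B[X] := q.primPart.map (algebraMap ℤ B)
  have hfx : aeval x f = 0 := by
    rw [aeval_map_algebraMap]
    exact hprim
  have hfi : ∃ j, ((f.coeff j : B) : L) ∉ A.nonunits := by
    refine ⟨i, ?_⟩
    have : ((f.coeff i : B) : L) = ((q.primPart.coeff i : ℤ) : L) := by
      simp [f]
    rw [this]
    exact intCast_not_mem_nonunits A hp hpA hi
  obtain ⟨b, s, hs, hxs⟩ := exists_mul_eq_of_aeval_eq_zero A B hB f.natDegree f le_rfl hfi x hx hfx
  exact ⟨b, s, b.2, s.2, hs, hxs⟩

end Fraction

section Decomposition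

open scoped Pointwise

variable {K L : Type*} [Field K] [Field L] [CharZero L] [Algebra K L]

omit [CharZero L] in
theorem isIntegral_int_algEquiv_apply (σ : L ≃ₐ[K] L) {b : L} (hb : IsIntegral ℤ b) :
    IsIntegral ℤ (σ b) :=
  hb.map ((σ : L →+* L).toIntAlgHom)

theorem algEquiv_apply_mem_of_forall_integral (A : ValuationSubring L) {p : ℕ} (hp : p.Prime)
    (hpA : (p : L) ∈ A.nonunits) (halg : ∀ x : L, IsAlgebraic ℤ x) (τ : L ≃ₐ[K] L)
    (hτ : ∀ b : L, IsIntegral ℤ b → (b ∈ A.nonunits ↔ τ b ∈ A.nonunits))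
    {x : L} (hx : x ∈ A) : τ x ∈ A := by
  obtain ⟨b, s, hb, hs, hsA, hxs⟩ := exists_integral_fraction A hp hpA hx (halg x)
  have hτs : IsIntegral ℤ (τ s) := isIntegral_int_algEquiv_apply τ hs
  have hτb : IsIntegral ℤ (τ b) := isIntegral_int_algEquiv_apply τ hb
  have h1 : A.valuation (τ s) = 1 := by
    have hle : A.valuation (τ s) ≤ 1 :=
      (A.valuation_le_one_iff _).mpr (mem_valuationSubring_of_isIntegral_int A hτs)
    have hnlt : ¬ A.valuation (τ s) < 1 := fun h =>
      hsA ((hτ s hs).mpr (A.mem_nonunits_iff.mpr h))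
    exact le_antisymm hle (not_lt.mp hnlt)
  have h2 : A.valuation (τ b) ≤ 1 :=
    (A.valuation_le_one_iff _).mpr (mem_valuationSubring_of_isIntegral_int A hτb)
  have h3 : τ x * τ s = τ b := by rw [← map_mul, hxs]
  rw [← A.valuation_le_one_iff]
  have := congrArg A.valuation h3
  rw [map_mul, h1, mul_one] at this
  rw [this]
  exact h2

theorem mem_decompositionSubgroup_of_forall_integral (A : ValuationSubring L) {p : ℕ}
    (hp : p.Prime) (hpA : (p : L) ∈ A.nonunits) (halg : ∀ x : L, IsAlgebraic ℤ x) (σ : L ≃ₐ[K] L)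
    (hσ : ∀ b : L, IsIntegral ℤ b → (b ∈ A.nonunits ↔ σ b ∈ A.nonunits)) :
    σ ∈ A.decompositionSubgroup K := by
  have hσ' : ∀ b : L, IsIntegral ℤ b → (b ∈ A.nonunits ↔ σ.symm b ∈ A.nonunits) := by
    intro b hb
    have := hσ (σ.symm b) (isIntegral_int_algEquiv_apply σ.symm hb)
    rw [AlgEquiv.apply_symm_apply] at this
    exact this.symm
  rw [MulAction.mem_stabilizer_iff]
  ext x
  rw [ValuationSubring.mem_pointwise_smul_iff_inv_smul_mem]
  have hinv : σ⁻¹ • x = σ.symm x := rfl
  rw [hinv]
  constructor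
  · intro h
    have := algEquiv_apply_mem_of_forall_integral A hp hpA halg σ hσ h
    rwa [AlgEquiv.apply_symm_apply] at this
  · intro h
    exact algEquiv_apply_mem_of_forall_integral A hp hpA halg σ.symm hσ' h

theorem isFrobeniusAt_of_forall_integral (A : ValuationSubring L) {p : ℕ}
    (hp : p.Prime) (hpA : (p : L) ∈ A.nonunits) (halg : ∀ x : L, IsAlgebraic ℤ x) (σ : L ≃ₐ[K] L)
    (hσ : σ ∈ A.decompositionSubgroup K)
    (hfrob : ∀ b : L, IsIntegral ℤ b → σ b - b ^ p ∈ A.nonunits) :
    A.IsFrobeniusAt σ p := by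
  refine ⟨hσ, fun x => ?_⟩
  obtain ⟨a, rfl⟩ := IsLocalRing.residue_surjective x
  rw [← IsLocalRing.ResidueField.residue_smul, ← map_pow, ← sub_eq_zero, ← map_sub,
    IsLocalRing.residue_eq_zero_iff, ← ValuationSubring.coe_mem_nonunits_iff]
  have hcoe : (((⟨σ, hσ⟩ : A.decompositionSubgroup K) • a - a ^ p : A) : L) = σ (a : L) - (a : L) ^ p :=
    rfl
  rw [hcoe]
  obtain ⟨b, s, hb, hs, hsA, hxs⟩ := exists_integral_fraction A hp hpA a.2 (halg a)
  set x : L := (a : L) with hxdef
  have hσs : IsIntegral ℤ (σ s) := isIntegral_int_algEquiv_apply σ hs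
  have hsmem : s ∈ A := mem_valuationSubring_of_isIntegral_int A hs
  have hbmem : b ∈ A := mem_valuationSubring_of_isIntegral_int A hb
  have hσsmem : σ s ∈ A := mem_valuationSubring_of_isIntegral_int A hσs
  have hσsA : σ s ∉ A.nonunits := by
    intro h
    have h1 := hfrob s hs
    -- s^p = σ s - (σ s - s^p) is a non-unit, hence so is s
    have h2 : s ^ p ∈ A.nonunits := by
      have : s ^ p = σ s - (σ s - s ^ p) := by ring
      rw [this]
      exact A.nonunits.sub_mem h h1
    rw [A.mem_nonunits_iff, map_pow] at h2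
    apply hsA
    rw [A.mem_nonunits_iff]
    by_contra hge
    have hge' : 1 ≤ A.valuation s := not_lt.mp hge
    exact absurd h2 (not_lt.mpr (one_le_pow₀ hge'))
  have hv1 : A.valuation s = 1 :=
    le_antisymm ((A.valuation_le_one_iff _).mpr hsmem)
      (not_lt.mp fun h => hsA (A.mem_nonunits_iff.mpr h))
  have hv2 : A.valuation (σ s) = 1 :=
    le_antisymm ((A.valuation_le_one_iff _).mpr hσsmem)
      (not_lt.mp fun h => hσsA (A.mem_nonunits_iff.mpr h))
  have hkey : (σ x - x ^ p) * (σ s * s ^ p) = (σ b - b ^ p) * s ^ p - b ^ p * (σ s - s ^ p) := by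
    have e1 : σ x * σ s = σ b := by rw [← map_mul, hxs]
    have e2 : x ^ p * s ^ p = b ^ p := by rw [← mul_pow, hxs]
    calc (σ x - x ^ p) * (σ s * s ^ p) = (σ x * σ s) * s ^ p - (x ^ p * s ^ p) * σ s := by ring
      _ = σ b * s ^ p - b ^ p * σ s := by rw [e1, e2]
      _ = _ := by ring
  have hrhs : A.valuation ((σ b - b ^ p) * s ^ p - b ^ p * (σ s - s ^ p)) < 1 := by
    refine lt_of_le_of_lt (A.valuation.map_sub _ _) (max_lt ?_ ?_)
    · rw [map_mul, map_pow, hv1, one_pow, mul_one]
      exact A.mem_nonunits_iff.mp (hfrob b hb)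
    · rw [map_mul]
      calc A.valuation (b ^ p) * A.valuation (σ s - s ^ p)
          ≤ 1 * A.valuation (σ s - s ^ p) := by
            gcongr; exact (A.valuation_le_one_iff _).mpr (pow_mem hbmem p)
        _ = A.valuation (σ s - s ^ p) := one_mul _
        _ < 1 := A.mem_nonunits_iff.mp (hfrob s hs)
  rw [← hkey, map_mul, map_mul, map_pow, hv1, hv2, one_pow, mul_one, mul_one] at hrhs
  exact A.mem_nonunits_iff.mpr hrhs

end Decomposition

section Existence

open scoped Pointwise

local notation "Qbar" => AlgebraicClosure ℚ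
local notation "Γ" => (AlgebraicClosure ℚ ≃ₐ[ℚ] AlgebraicClosure ℚ)

local instance isAlgebraicQbar_S54 : Algebra.IsAlgebraic ℚ (AlgebraicClosure ℚ) :=
  AlgebraicClosure.isAlgebraic ℚ
local instance isAlgClosureQbar_S54 : IsAlgClosure ℚ (AlgebraicClosure ℚ) :=
  ⟨inferInstance, inferInstance⟩
local instance normalQbar_S54 : Normal ℚ (AlgebraicClosure ℚ) :=
  IsAlgClosure.normal ℚ (AlgebraicClosure ℚ)

theorem isAlgebraic_int_Qbar (x : Qbar) : IsAlgebraic ℤ x :=
  (IsFractionRing.isAlgebraic_iff ℤ ℚ Qbar).mpr (Algebra.IsAlgebraic.isAlgebraic x)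

/-- There is a valuation subring of `ℚ̄` in which `p` is a non-unit. -/
theorem exists_valuationSubring_liesOverPrime (p : ℕ) (hp : p.Prime) :
    ∃ A : ValuationSubring Qbar, (p : Qbar) ∈ A.nonunits := by
  let R : Subring Qbar := ⊥
  let pR : R := ⟨(p : Qbar), Subring.mem_bot.mpr ⟨(p : ℤ), by simp⟩⟩
  have hne : Ideal.span {pR} ≠ ⊤ := by
    rw [Ne, Ideal.span_singleton_eq_top]
    intro hunit
    obtain ⟨⟨y, hy⟩, hpy⟩ := isUnit_iff_exists_inv.mp hunit
    obtain ⟨n, rfl⟩ := Subring.mem_bot.mp hy
    have h1 : ((p : Qbar) * ((n : ℤ) : Qbar)) = 1 := congrArg Subtype.val hpy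
    have h2 : (p : ℤ) * n = 1 := by exact_mod_cast h1
    have h3 : (p : ℤ) ∣ 1 := ⟨n, h2.symm⟩
    have h4 := Int.natCast_dvd_natCast.mp (by simpa using h3 : ((p : ℕ) : ℤ) ∣ ((1 : ℕ) : ℤ))
    exact hp.one_lt.ne' (Nat.dvd_one.mp h4)
  obtain ⟨A, -, hA⟩ := Ideal.image_subset_nonunits_valuationSubring _ hne
  exact ⟨A, hA ⟨pR, Ideal.subset_span rfl, rfl⟩⟩

/-- The Galois-fixed algebraic integers are the rational integers. -/
theorem isInvariant_int_integralClosure_Qbar :
    Algebra.IsInvariant ℤ (integralClosure ℤ Qbar) Γ := by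
  refine ⟨fun b hb => ?_⟩
  have hfix : (b : Qbar) ∈ IntermediateField.fixedField (⊤ : Subgroup Γ) := by
    rintro ⟨g, -⟩
    exact congrArg Subtype.val (hb g)
  rw [InfiniteGalois.fixedField_bot, IntermediateField.mem_bot] at hfix
  obtain ⟨r, hr⟩ := hfix
  have hbint : IsIntegral ℤ (b : Qbar) := b.2
  rw [← hr, isIntegral_algebraMap_iff (FaithfulSMul.algebraMap_injective ℚ Qbar)] at hbint
  obtain ⟨a, ha⟩ := IsIntegrallyClosed.algebraMap_eq_of_integral hbint
  refine ⟨a, Subtype.ext ?_⟩
  rw [← hr, ← ha]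
  simp

theorem continuousSMul_integralClosure_Qbar [TopologicalSpace (integralClosure ℤ Qbar)]
    [DiscreteTopology (integralClosure ℤ Qbar)] :
    ContinuousSMul Γ (integralClosure ℤ Qbar) := by
  rw [continuousSMul_iff_stabilizer_isOpen]
  intro b
  have : (MulAction.stabilizer Γ b : Set Γ) = (MulAction.stabilizer Γ (b : Qbar) : Set Γ) := by
    ext g
    simp only [SetLike.mem_coe, MulAction.mem_stabilizer_iff]
    constructor
    · intro h; exact congrArg Subtype.val h
    · intro h; exact Subtype.ext h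
  rw [this]
  exact stabilizer_isOpen_of_isIntegral (b : Qbar)

/-- **Existence of Frobenius elements**: for every prime `p` there are a valuation subring `A` of
`ℚ̄` lying over `p` and an element `σ` of the absolute Galois group of `ℚ` which is a Frobenius
element for `A`. -/
theorem exists_isFrobeniusAt (p : ℕ) (hp : p.Prime) :
    ∃ (A : ValuationSubring Qbar) (σ : Γ), A.LiesOverPrime p ∧ A.IsFrobeniusAt σ p := by
  obtain ⟨A, hpA⟩ := exists_valuationSubring_liesOverPrime p hp
  -- the ring of all algebraic integers and its prime below the maximal ideal of `A`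
  have hBA : ∀ b : integralClosure ℤ Qbar, (b : Qbar) ∈ A :=
    fun b => mem_valuationSubring_of_isIntegral_int A b.2
  let ι : integralClosure ℤ Qbar →+* A :=
    ((integralClosure ℤ Qbar).val : integralClosure ℤ Qbar →+* Qbar).codRestrict A hBA
  let Q : Ideal (integralClosure ℤ Qbar) := (IsLocalRing.maximalIdeal A).comap ι
  have hQmem : ∀ b : integralClosure ℤ Qbar, b ∈ Q ↔ (b : Qbar) ∈ A.nonunits := by
    intro b
    rw [Ideal.mem_comap, ← ValuationSubring.coe_mem_nonunits_iff]
    rfl
  have hQprime : Q.IsPrime := Ideal.comap_isPrime ι _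
  let P : Ideal ℤ := Ideal.span {(p : ℤ)}
  have hPmax : P.IsMaximal :=
    PrincipalIdealRing.isMaximal_of_irreducible
      (Nat.prime_iff_prime_int.mp hp).irreducible
  have hQP : Q.LiesOver P := by
    refine ⟨?_⟩
    refine hPmax.eq_of_le ?_ ?_
    · intro htop
      have h1 : (1 : ℤ) ∈ Q.under ℤ := htop ▸ Submodule.mem_top
      rw [Ideal.under_def, Ideal.mem_comap, map_one, hQmem] at h1
      have := A.mem_nonunits_iff.mp h1
      simp at this
    · rw [Ideal.span_le, Set.singleton_subset_iff, SetLike.mem_coe, Ideal.under_def,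
        Ideal.mem_comap, hQmem]
      simpa using hpA
  -- the quotient has characteristic `p` and a bijective Frobenius
  have : Fact p.Prime := ⟨hp⟩
  have hchar : CharP (integralClosure ℤ Qbar ⧸ Q) p := by
    rw [CharP.charP_iff_prime_eq_zero hp]
    have : ((p : integralClosure ℤ Qbar) : integralClosure ℤ Qbar ⧸ Q) = 0 := by
      rw [Ideal.Quotient.eq_zero_iff_mem, hQmem]
      simpa using hpA
    simpa using this
  have hfrob_bij : Function.Bijective (frobenius (integralClosure ℤ Qbar ⧸ Q) p) := by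
    refine ⟨frobenius_inj _ p, fun y => ?_⟩
    obtain ⟨b, rfl⟩ := Ideal.Quotient.mk_surjective y
    obtain ⟨z, hz⟩ := IsAlgClosed.exists_pow_nat_eq (b : Qbar) hp.pos
    have hzint : IsIntegral ℤ z := IsIntegral.of_pow hp.pos (hz ▸ b.2)
    refine ⟨Ideal.Quotient.mk Q ⟨z, hzint⟩, ?_⟩
    rw [frobenius_def, ← map_pow]
    congr 1
    exact Subtype.ext hz
  let φ : (integralClosure ℤ Qbar ⧸ Q) ≃ₐ[ℤ ⧸ P] (integralClosure ℤ Qbar ⧸ Q) :=
    AlgEquiv.ofRingEquiv (f := RingEquiv.ofBijective (frobenius (integralClosure ℤ Qbar ⧸ Q) p) hfrob_bij)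
      (by
        intro x
        obtain ⟨n, rfl⟩ := Ideal.Quotient.mk_surjective x
        rw [Ideal.Quotient.algebraMap_mk_of_liesOver]
        simp)
  -- apply the profinite surjectivity theorem
  let _ : TopologicalSpace (integralClosure ℤ Qbar) := ⊥
  have : DiscreteTopology (integralClosure ℤ Qbar) := ⟨rfl⟩
  have := continuousSMul_integralClosure_Qbar
  have := isInvariant_int_integralClosure_Qbar
  obtain ⟨⟨σ, hσQ⟩, hσφ⟩ := Ideal.Quotient.stabilizerHom_surjective_of_profinite (G := Γ) P Q φ
  -- translate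
  have hfrobB : ∀ b : integralClosure ℤ Qbar, σ • b - b ^ p ∈ Q := by
    intro b
    have h1 := DFunLike.congr_fun hσφ (Ideal.Quotient.mk Q b)
    rw [Ideal.Quotient.stabilizerHom_apply] at h1
    have h2 : φ (Ideal.Quotient.mk Q b) = Ideal.Quotient.mk Q (b ^ p) := by
      simp [φ, frobenius_def]
    rw [h2] at h1
    exact Ideal.Quotient.eq.mp h1
  have hstab : ∀ b : integralClosure ℤ Qbar, b ∈ Q ↔ σ • b ∈ Q := by
    intro b
    have hσQ' : σ • Q = Q := hσQ
    conv_rhs => rw [← hσQ']
    exact Ideal.smul_mem_pointwise_smul_iff.symm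
  have hfrob : ∀ b : Qbar, IsIntegral ℤ b → σ b - b ^ p ∈ A.nonunits := by
    intro b hb
    have := (hQmem _).mp (hfrobB ⟨b, hb⟩)
    exact this
  have hσA : ∀ b : Qbar, IsIntegral ℤ b → (b ∈ A.nonunits ↔ σ b ∈ A.nonunits) := by
    intro b hb
    have h1 := hstab ⟨b, hb⟩
    rw [hQmem, hQmem] at h1
    exact h1
  have hσD : σ ∈ A.decompositionSubgroup ℚ :=
    mem_decompositionSubgroup_of_forall_integral A hp hpA isAlgebraic_int_Qbar σ hσA
  exact ⟨A, σ, hpA, isFrobeniusAt_of_forall_integral A hp hpA isAlgebraic_int_Qbar σ hσD hfrob⟩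

end Existence

end Fermat.Agent.S54
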